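import Fermat.Agent.CFT.PT.Link

/-!
# The archimedean place: `2`-cocycles with values in a `p`-group are coboundaries for `p` odd
-/

set_option autoImplicit false
set_option synthInstance.maxHeartbeats 200000
set_option linter.unusedSectionVars false
set_option linter.style.haveILetI false

noncomputable section

namespace Fermat.Agent.CFT.PT

open ExtCitation Fermat.Agent.Arith IntermediateField Fermat.Agent.CFT.Idele groupCohomology

/-- A cocycle on a group of order two, of odd torsion, is an explicit coboundary. -/
theorem half_sum_dd {G M : Type*} [Group G] [AddCommGroup M] [DistribMulAction G M] {p : ℕ}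
    (hp : ¬ 2 ∣ p) (hM : ∀ x : M, p • x = 0) (c : G × G → M) (hc : IsCocycle₂ c) (γ : G)
    (hγ : γ * γ = 1) (a b : G) (hb : b = 1 ∨ b = γ) :
    a • (((p + 1) / 2) • (c (b, 1) + c (b, γ))) - ((p + 1) / 2) • (c (a * b, 1) + c (a * b, γ))
      + ((p + 1) / 2) • (c (a, 1) + c (a, γ)) = c (a, b) := by
  rw [smul_comm, ← smul_sub, ← smul_add, smul_add a]
  have h1 := hc a b 1
  have h2 := hc a b γ
  rw [← eq_sub_iff_add_eq] at h1 h2
  have key : a • c (b, 1) + a • c (b, γ) - (c (a * b, 1) + c (a * b, γ))
      + (c (a, 1) + c (a, γ)) = 2 • c (a, b) := by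
    rw [h1, h2, two_nsmul]
    rcases hb with h | h <;> subst h <;> simp only [one_mul, mul_one, hγ] <;> abel
  rw [key, smul_smul, Nat.div_mul_cancel (by omega), add_smul, one_smul, hM, zero_add]

variable {K : IntermediateField ℚ QBar} [FiniteDimensional ℚ K] [Normal ℚ K]
  {A : Type*} [AddCommGroup A] [DistribMulAction (K ≃ₐ[ℚ] K) A]

/-- A cocycle with values in the dual is a coboundary at the archimedean place. -/
theorem exists_archimedean_cochain {p : ℕ} [Fact p.Prime] (hp2 : p ≠ 2)
    (hA : ∀ a : A, p • a = 0) (c : GQ × GQ → DualMod K A) (hc : IsCocycle₂ c) :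
    ∃ m : archimedeanDecomposition → DualMod K A, IsLevelConstant₁ archimedeanLoc m ∧
      ∀ s t, c (archimedeanLoc s, archimedeanLoc t) = archimedeanLoc s • m t - m (s * t) + m s := by
  have hM : ∀ φ : DualMod K A, p • φ = 0 := fun φ => TwHom.ext fun a => by
    rw [TwHom.nsmul_apply, ← map_nsmul, hA, map_zero, TwHom.zero_apply]
  have hodd : ¬ 2 ∣ p := fun h =>
    hp2 ((Nat.prime_dvd_prime_iff_eq Nat.prime_two Fact.out).mp h).symm
  have hmem : ∀ t : archimedeanDecomposition,
      archimedeanLoc t = 1 ∨ archimedeanLoc t = complexConjugation := by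
    rintro ⟨t, ht⟩
    obtain ⟨n, rfl⟩ := Subgroup.mem_zpowers_iff.mp ht
    rcases Int.even_or_odd n with ⟨j, rfl⟩ | ⟨j, rfl⟩
    · left
      show complexConjugation ^ (j + j) = 1
      rw [zpow_add, ← (Commute.refl complexConjugation).mul_zpow, complexConjugation_mul_self,
        one_zpow]
    · right
      show complexConjugation ^ (2 * j + 1) = complexConjugation
      rw [zpow_add, zpow_mul, zpow_two, complexConjugation_mul_self, one_zpow, zpow_one, one_mul]
  refine ⟨fun s => ((p + 1) / 2) • (c (archimedeanLoc s, 1) + c (archimedeanLoc s,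
    complexConjugation)), ?_, fun s t => ?_⟩
  · obtain ⟨x, hx⟩ := IsAlgClosed.exists_pow_nat_eq (-1 : QBar) two_pos
    refine ⟨IntermediateField.adjoin ℚ {x}, IntermediateField.adjoin.finiteDimensional
      (Algebra.IsIntegral.isIntegral x), fun g s hs => ?_⟩
    have hs1 : archimedeanLoc s = 1 := (hmem s).resolve_right fun h => by
      have hfix : complexConjugation x = x := h ▸ (IntermediateField.mem_fixingSubgroup_iff _ _).mp
        hs x (IntermediateField.subset_adjoin _ _ rfl)
      have h1 := complexEmbedding_complexConjugation x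
      rw [hfix, eq_comm, Complex.conj_eq_iff_re] at h1
      have h2 : complexEmbedding x ^ 2 = -1 := by rw [← map_pow, hx, map_neg, map_one]
      rw [← h1] at h2
      have h3 : ((complexEmbedding x).re) ^ 2 = -1 := by exact_mod_cast h2
      linarith [sq_nonneg (complexEmbedding x).re]
    simp only [map_mul, hs1, mul_one]
  · simp only [map_mul]
    exact (half_sum_dd hodd hM c hc complexConjugation complexConjugation_mul_self _ _
      (hmem t)).symm

end Fermat.Agent.CFT.PT
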