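import Fermat.Agent.CFT.PT.Local.Common

/-!
# Local coboundaries give trivialisations at the prime
-/

set_option autoImplicit false
set_option synthInstance.maxHeartbeats 200000
set_option maxHeartbeats 800000
set_option linter.unusedSectionVars false
set_option linter.style.haveILetI false

noncomputable section

namespace Fermat.Agent.CFT.PT

open ExtCitation Fermat.Agent.Arith IntermediateField Fermat.Agent.CFT.Local Fermat.Agent.CFT.Idele
open Fermat.Agent.CFT.Duality groupCohomology

local instance factPrimePTPlace (q : Nat.Primes) : Fact (q : ℕ).Prime := ⟨q.2⟩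

variable {K L : IntermediateField ℚ QBar} [FiniteDimensional ℚ K] [Normal ℚ K]
  [FiniteDimensional ℚ L] [Normal ℚ L] {A : Type*} [AddCommGroup A]
  [DistribMulAction (K ≃ₐ[ℚ] K) A]

/-- `p`-torsion of `ℚ̄ˣ` lies in a field with a primitive `p`-th root of unity. -/
theorem exists_unitsToQ_eq_of_nsmul {p : ℕ} [Fact p.Prime] (hζ : ∃ z ∈ K, IsPrimitiveRoot z p)
    {x : Additive QBarˣ} (hx : p • x = 0) : ∃ y, unitsToQ K y = x := by
  obtain ⟨z, hzK, hz⟩ := hζ
  haveI : NeZero p := ⟨(Fact.out : p.Prime).ne_zero⟩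
  have hx' : ((x.toMul : QBarˣ) : QBar) ^ p = 1 := by
    have h := congrArg (fun w : Additive QBarˣ => ((w.toMul : QBarˣ) : QBar)) hx
    simpa using h
  obtain ⟨i, -, hi⟩ := hz.eq_pow_of_pow_eq_one hx'
  have hmem : ((x.toMul : QBarˣ) : QBar) ∈ K := hi ▸ pow_mem hzK i
  have hne : (⟨_, hmem⟩ : K) ≠ 0 := fun h => x.toMul.ne_zero (congrArg Subtype.val h)
  exact ⟨Additive.ofMul (Units.mk0 _ hne), Additive.toMul.injective (Units.ext rfl)⟩

/-- Elements of the dual take values in every level. -/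
theorem exists_toQHom_eq {p : ℕ} [Fact p.Prime] (hA : ∀ a : A, p • a = 0)
    (hζ : ∃ z ∈ K, IsPrimitiveRoot z p) {h : K ≤ L} (φ : DualMod K A) :
    ∃ ψ : TwHom (levelRes h) A (Additive Lˣ), toQHom ψ = φ := by
  have hr : ∀ a, φ.toHom a ∈ (unitsToQ L).range := fun a => by
    obtain ⟨y, hy⟩ := exists_unitsToQ_eq_of_nsmul hζ (x := φ.toHom a)
      (by rw [← map_nsmul, hA, map_zero])
    exact ⟨unitsIncl h y, (unitsToQ_unitsIncl h y).trans hy⟩
  refine ⟨TwHom.of ((AddMonoidHom.ofInjective (unitsToQ_injective L)).symm.toAddMonoidHom.comp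
    (φ.toHom.codRestrict _ hr)), TwHom.ext fun a => ?_⟩
  exact congrArg Subtype.val ((AddMonoidHom.ofInjective (unitsToQ_injective L)).apply_symm_apply _)

/-- A cocycle which is a local coboundary at `q ∈ S` is trivial at `q`. -/
theorem locTriv_of_local {p : ℕ} [Fact p.Prime] {S : Finset Nat.Primes} {le : K ≤ L}
    {q : Nat.Primes} (hA : ∀ a : A, p • a = 0) (hζ : ∃ z ∈ K, IsPrimitiveRoot z p) (hq : q ∈ S)
    (c : (L ≃ₐ[ℚ] L) × (L ≃ₐ[ℚ] L) → TwHom (levelRes le) A (Additive Lˣ)) (hc : IsCocycle₂ c)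
    (m : primeLocalGaloisGroup q → DualMod K A)
    (hm : IsLevelConstant₁ (primeLocalToGlobal q) m)
    (hdm : ∀ s t : primeLocalGaloisGroup q,
      toQHom (c (res L (primeLocalToGlobal q s), res L (primeLocalToGlobal q t))) =
        primeLocalToGlobal q s • m t - m (s * t) + m s) :
    LocTriv S c q := by
  classical
  obtain ⟨F, hF, hFm⟩ := hm
  haveI := hF
  set F' := L ⊔ F
  haveI : FiniteDimensional ℚ F' := IntermediateField.finiteDimensional_sup _ _
  set L' := IntermediateField.normalClosure ℚ F' QBar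
  haveI : Normal ℚ L' := normal_normalClosure F'
  have h' : L ≤ L' := le_sup_left.trans F'.le_normalClosure
  have hFL : F ≤ L' := le_sup_right.trans F'.le_normalClosure
  have hd : ∀ d : decomp L' q, ∃ s : primeLocalGaloisGroup q,
      res L' (primeLocalToGlobal q s) = (d : L' ≃ₐ[ℚ] L') := by
    rintro ⟨_, t, rfl⟩
    obtain ⟨τ, rfl⟩ := AlgEquiv.restrictNormalHom_surjective (K₁ := E L' q) (Ω q) t
    exact ⟨τ, (toGlobal_restrict (q : ℕ) L' τ).symm⟩
  choose s hs using hd
  have hwd : ∀ u v : primeLocalGaloisGroup q,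
      res L' (primeLocalToGlobal q u) = res L' (primeLocalToGlobal q v) → m u = m v :=
    fun u v h => by
    have h1 := IntermediateField.fixingSubgroup_antitone hFL ((res_eq_iff L').1 h)
    rw [← map_inv, ← map_mul] at h1
    have h2 := hFm u (u⁻¹ * v) h1
    rw [mul_inv_cancel_left] at h2
    exact h2.symm
  have hlift : ∀ φ : DualMod K A,
      ∃ ψ : TwHom (levelRes (le.trans h')) A (Additive L'ˣ), toQHom ψ = φ := fun φ =>
    exists_toQHom_eq hA hζ φ
  choose lift hlift using hlift
  refine locTriv_of_units h' (fun hn => absurd hq hn) c hc (fun d => lift (m (s d))) fun a b => ?_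
  refine toQHom_injective ?_
  have he : toQHom (pushUnits h'
      (c (levelRes h' (a : L' ≃ₐ[ℚ] L'), levelRes h' (b : L' ≃ₐ[ℚ] L')))) =
      toQHom (c (res L (primeLocalToGlobal q (s a)), res L (primeLocalToGlobal q (s b)))) := by
    rw [← levelRes_res h', ← levelRes_res h', hs, hs]
    rfl
  rw [he, hdm, map_add, map_sub, ← hs a, ← smul_toQHom, hlift, hlift, hlift,
    hwd (s (a * b)) (s a * s b) (by rw [map_mul, map_mul, hs, hs, hs]; rfl)]

end Fermat.Agent.CFT.PT
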