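import Fermat.Agent.CFT.PT.Glue
import Fermat.Agent.CFT.PT.SemiH2
import Fermat.Agent.CFT.PT.Arith.Basic

/-!
# Trivialisations at a prime from trivialisations on the decomposition group
-/

set_option autoImplicit false
set_option synthInstance.maxHeartbeats 200000
set_option maxHeartbeats 800000
set_option linter.unusedSectionVars false
set_option linter.style.haveILetI false

noncomputable section

namespace Fermat.Agent.CFT.PT

open ExtCitation Fermat.Agent.Arith IntermediateField Fermat.Agent.CFT.Local Fermat.Agent.CFT.Idele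
open Fermat.Agent.CFT.Duality groupCohomology

local instance factPrimePTLocal (q : Nat.Primes) : Fact (q : ℕ).Prime := ⟨q.2⟩

variable {K L L' : IntermediateField ℚ QBar} [FiniteDimensional ℚ K] [Normal ℚ K]
  [FiniteDimensional ℚ L] [Normal ℚ L] [FiniteDimensional ℚ L'] [Normal ℚ L']
  {A : Type*} [AddCommGroup A] [DistribMulAction (K ≃ₐ[ℚ] K) A]

/-- Values in the units of a larger level. -/
def pushUnits {le : K ≤ L} (h' : L ≤ L') :
    TwHom (levelRes le) A (Additive Lˣ) →+ TwHom (levelRes (le.trans h')) A (Additive L'ˣ) :=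
  AddMonoidHom.mk' (fun φ => TwHom.of ((unitsIncl h').comp φ.toHom))
    fun φ ψ => TwHom.ext fun x => map_add (unitsIncl h') (φ x) (ψ x)

@[simp] theorem pushUnits_apply {le : K ≤ L} (h' : L ≤ L')
    (φ : TwHom (levelRes le) A (Additive Lˣ)) (a : A) :
    pushUnits h' φ a = unitsIncl h' (φ a) := rfl

theorem smul_pushUnits {le : K ≤ L} (h' : L ≤ L') (g : L' ≃ₐ[ℚ] L')
    (φ : TwHom (levelRes le) A (Additive Lˣ)) :
    g • pushUnits h' φ = pushUnits h' (levelRes h' g • φ) := TwHom.ext fun a => by
  simp only [TwHom.smul_apply, pushUnits_apply, smul_unitsIncl, map_inv, levelRes_levelRes]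

/-- Homomorphisms with values in the ideles supported at `q`. -/
def twSupported (le : K ≤ L) (q : Nat.Primes) :
    AddSubgroup (TwHom (levelRes le) A (J L)) where
  carrier := {φ | ∀ a, φ a ∈ supportedIn L {q}}
  zero_mem' a := by rw [TwHom.zero_apply]; exact zero_mem _
  add_mem' {φ ψ} hφ hψ a := by rw [TwHom.add_apply]; exact add_mem (hφ a) (hψ a)
  neg_mem' {φ} hφ a := by rw [TwHom.neg_apply]; exact neg_mem (hφ a)

theorem locPart_mem_supportedIn (q : Nat.Primes) (x : J L) :
    locPart L q x ∈ supportedIn L {q} := fun q' hq' σ => by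
  rw [locPart_apply]
  exact val_locIdl_of_ne q _ (by simpa using hq') σ

theorem val_locPart_one (q : Nat.Primes) (x : J L) :
    val (locPart L q x).toMul q 1 = val x.toMul q 1 := by
  rw [← map_one (toGlobal (q : ℕ) L), locPart_apply]
  exact (val_locIdl_self q _ 1).trans (by rw [one_smul, toMul_ofMul, map_one])

theorem locPart_congr (q : Nat.Primes) {x y : J L} (h : val x.toMul q 1 = val y.toMul q 1) :
    locPart L q x = locPart L q y := by
  rw [locPart_apply, locPart_apply, h]

theorem semiProj_twHom (le : K ≤ L) (q : Nat.Primes) :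
    SemiProj (decomp L q) (TwHom.map (π := levelRes le) (P := A) (locPart L q))
      (twSupported le q) where
  mem φ a := by rw [TwHom.map_apply]; exact locPart_mem_supportedIn q _
  smul_mem g φ hφ a := by rw [TwHom.smul_apply]; exact smul_mem_supportedIn g (hφ _)
  comm d hd φ := TwHom.ext fun a => by
    simp only [TwHom.map_apply, TwHom.smul_apply, locPart_smul q hd]
  idem φ := TwHom.ext fun a => by
    simp only [TwHom.map_apply]
    exact locPart_congr q (val_locPart_one q _)
  off g hg φ := TwHom.ext fun a => by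
    simp only [TwHom.map_apply, TwHom.smul_apply, TwHom.zero_apply]
    refine (locPart_congr q (y := 0) ?_).trans (map_zero _)
    rw [val_smul_J, one_mul, locPart_apply]
    exact (val_locIdl_of_notMem q _ hg).trans (val_one q 1).symm
  ext φ hφ h := TwHom.ext fun a => by
    rw [TwHom.zero_apply]
    refine J_ext fun q' σ => ?_
    rw [show val (0 : J L).toMul q' σ = 1 from val_one q' σ]
    rcases eq_or_ne q' q with rfl | hne
    · have e := congr_arg (fun ψ : TwHom (levelRes le) A (J L) =>
        val (ψ (levelRes le σ • a)).toMul q' 1) (h σ)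
      simp only [TwHom.map_apply, TwHom.smul_apply, TwHom.zero_apply, val_locPart_one, val_smul_J,
        one_mul, map_inv, inv_smul_smul] at e
      exact e.trans (val_one q' 1)
    · exact hφ a q' (by simpa using hne) σ

/-- A trivialisation on the decomposition group of a higher level gives one at the prime. -/
theorem locTriv_of_units {S : Finset Nat.Primes} {le : K ≤ L} {q : Nat.Primes} (h' : L ≤ L')
    (hval : q ∉ S → inertia (E L' q) = ⊥)
    (c : (L ≃ₐ[ℚ] L) × (L ≃ₐ[ℚ] L) → TwHom (levelRes le) A (Additive Lˣ)) (hc : IsCocycle₂ c)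
    (m : decomp L' q → TwHom (levelRes (le.trans h')) A (Additive L'ˣ))
    (hm : ∀ a b : decomp L' q, (a : L' ≃ₐ[ℚ] L') • m b - m (a * b) + m a =
      pushUnits h' (c (levelRes h' (a : L' ≃ₐ[ℚ] L'), levelRes h' (b : L' ≃ₐ[ℚ] L')))) :
    LocTriv S c q := by
  classical
  haveI : Fintype ((L' ≃ₐ[ℚ] L') ⧸ decomp L' q) := Fintype.ofFinite _
  let c' : (L' ≃ₐ[ℚ] L') × (L' ≃ₐ[ℚ] L') → TwHom (levelRes (le.trans h')) A (J L') := fun x =>
    TwHom.map ((partAt {q}).comp (diag L')) (pushUnits h' (c (levelRes h' x.1, levelRes h' x.2)))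
  have hc' : IsCocycle₂ c' := fun g h j => by
    simp only [c', map_mul, ← map_add, hc (levelRes h' g) (levelRes h' h) (levelRes h' j)]
    rw [map_add, map_add, ← smul_pushUnits, TwHom.map_smul _ fun g x => ?_]
    show partAt {q} (diag L' (g • x)) = g • partAt {q} (diag L' x)
    rw [diag_smul, partAt_smul]
  obtain ⟨t, ht, htc⟩ := (semiProj_twHom (A := A) (le.trans h') q).exists_h2 c' hc'
    (fun x a => by
      simp only [c', TwHom.map_apply, AddMonoidHom.comp_apply]
      exact partAt_mem_supportedIn _ _)
    (fun d => TwHom.map ((locPart L' q).comp (diag L')) (m d))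
    (fun d => TwHom.ext fun a => by
      simp only [TwHom.map_apply, AddMonoidHom.comp_apply]
      exact locPart_congr q (val_locPart_one q _))
    (fun a b => TwHom.ext fun x => by
      simp only [c', TwHom.map_apply, AddMonoidHom.comp_apply, TwHom.add_apply, TwHom.sub_apply,
        TwHom.smul_apply, ← hm a b, map_add, map_sub, diag_smul, partAt_smul,
        locPart_smul q a.2]
      have hpart : ∀ y : J L', locPart L' q (partAt {q} y) = locPart L' q y := fun y =>
        locPart_congr q (by rw [val_partAt, if_pos (Set.mem_singleton q)])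
      simp only [hpart])
  refine ⟨L', inferInstance, inferInstance, h', fun hq => ⟨hval hq, fun g x => ?_⟩, t, ht,
    fun g h a => ?_⟩
  · obtain ⟨n, hn⟩ := exists_norm_eq_zpow L' (hval hq) (val x.toMul q (res L' g))
    exact ⟨n, by rw [← norm_val_eq]; exact hn⟩
  · rw [show dd t g h = c' (g, h) from htc g h]
    simp only [c', TwHom.map_apply, AddMonoidHom.comp_apply, pushUnits_apply, diag_unitsIncl]

end Fermat.Agent.CFT.PT
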