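import Fermat.Agent.CFT.PT.Arith.LocalRoot
import Fermat.Agent.CFT.PT.Local.AtPlace

/-!
# Linked cocycles are local coboundaries

The values of the ideles of a link extend to the lattice in `ℚ̄_qˣ`, and the difference from the
link's units gives a local cochain with values in the dual.
-/

set_option autoImplicit false
set_option synthInstance.maxHeartbeats 200000
set_option maxHeartbeats 1600000
set_option linter.unusedSectionVars false
set_option linter.style.haveILetI false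

noncomputable section

namespace Fermat.Agent.CFT.PT

open ExtCitation Fermat.Agent.Arith IntermediateField Fermat.Agent.CFT.Local Fermat.Agent.CFT.Idele
open Fermat.Agent.CFT.Duality groupCohomology

local instance factPrimePTLink (q : Nat.Primes) : Fact (q : ℕ).Prime := ⟨q.2⟩

/-- The units of `ℚ̄` inside those of `ℚ̄_q`. -/
def embU (q : Nat.Primes) : Additive QBarˣ →+ Additive (Ω q)ˣ :=
  MonoidHom.toAdditive (Units.map (emb q).toRingHom.toMonoidHom)

theorem embU_injective (q : Nat.Primes) : Function.Injective (embU q) := fun _ _ h =>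
  Additive.toMul.injective (Units.ext ((emb q).injective (congrArg
    (fun w : Additive (Ω q)ˣ => ((w.toMul : (Ω q)ˣ) : Ω q)) h)))

theorem smul_embU (q : Nat.Primes) (τ : Ω q ≃ₐ[ℚ_[(q : ℕ)]] Ω q) (x : Additive QBarˣ) :
    τ • embU q x = embU q (Idele.loc q τ • x) :=
  Additive.toMul.injective (Units.ext (emb_loc q τ ((x.toMul : QBarˣ) : QBar)).symm)

/-- `p`-torsion of `ℚ̄_qˣ` is algebraic. -/
theorem mem_range_embU_of_nsmul {p : ℕ} [Fact p.Prime] (q : Nat.Primes) {x : Additive (Ω q)ˣ}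
    (hx : p • x = 0) : x ∈ (embU q).range := by
  haveI : NeZero p := ⟨(Fact.out : p.Prime).ne_zero⟩
  haveI : NeZero (p : QBar) := ⟨Nat.cast_ne_zero.mpr (Fact.out : p.Prime).ne_zero⟩
  obtain ⟨ζ, hζ⟩ := HasEnoughRootsOfUnity.exists_primitiveRoot QBar p
  have hx' : ((x.toMul : (Ω q)ˣ) : Ω q) ^ p = 1 := by
    have h := congrArg (fun w : Additive (Ω q)ˣ => ((w.toMul : (Ω q)ˣ) : Ω q)) hx
    simpa using h
  obtain ⟨i, -, hi⟩ :=
    (hζ.map_of_injective (emb q).toRingHom.injective).eq_pow_of_pow_eq_one hx'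
  have hζ0 : ζ ^ i ≠ 0 := pow_ne_zero i (hζ.ne_zero (Fact.out : p.Prime).ne_zero)
  refine ⟨Additive.ofMul (Units.mk0 (ζ ^ i) hζ0), Additive.toMul.injective (Units.ext ?_)⟩
  show emb q (ζ ^ i) = _
  rw [map_pow]
  exact hi

theorem baer_unitsΩ (q : Nat.Primes) : Module.Baer ℤ (Additive (Ω q)ˣ) := by
  have hex : ∀ (y : Additive (Ω q)ˣ) (n : ℤ), n ≠ 0 → ∃ x : Additive (Ω q)ˣ, n • x = y := by
    intro y n hn
    obtain ⟨z, hz⟩ := IsAlgClosed.exists_pow_nat_eq ((y.toMul : (Ω q)ˣ) : Ω q)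
      (Int.natAbs_pos.mpr hn)
    have hz0 : z ≠ 0 := fun h => by
      rw [h, zero_pow (Int.natAbs_ne_zero.mpr hn)] at hz
      exact y.toMul.ne_zero hz.symm
    set x : Additive (Ω q)ˣ := Additive.ofMul (Units.mk0 z hz0) with hx0
    have hx : (n.natAbs : ℤ) • x = y := by
      rw [natCast_zsmul]
      refine Additive.toMul.injective (Units.ext ?_)
      rw [toMul_nsmul, Units.val_pow_eq_pow_val, hx0, toMul_ofMul, Units.val_mk0, hz]
    rcases Int.natAbs_eq n with h | h
    · exact ⟨x, by rw [h]; exact hx⟩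
    · exact ⟨-x, by rw [h, neg_smul, smul_neg, neg_neg]; exact hx⟩
  haveI : DivisibleBy (Additive (Ω q)ˣ) ℤ :=
    { div := fun y n => if h : n ≠ 0 then (hex y n h).choose else 0
      div_zero := fun y => by simp
      div_cancel := fun {n} y hn => by rw [dif_pos hn]; exact (hex y n hn).choose_spec }
  exact Module.Baer.of_divisible _

variable {L : IntermediateField ℚ QBar} [FiniteDimensional ℚ L] [Normal ℚ L]

/-- The value of an idele at the distinguished place over `q`. -/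
def evalQ (q : Nat.Primes) : J L →+ Additive (Ω q)ˣ :=
  AddMonoidHom.mk' (fun x => Additive.ofMul ((x.toMul : PreIdele) q 1)) fun _ _ => rfl

theorem evalQ_smul (q : Nat.Primes) (τ : Ω q ≃ₐ[ℚ_[(q : ℕ)]] Ω q) (x : J L) :
    evalQ q (res L (Idele.loc q τ) • x) = τ • evalQ q x := by
  refine Additive.toMul.injective (Units.ext ?_)
  show (((res L (Idele.loc q τ) • x).toMul : PreIdele) q 1 : Ω q) =
    τ ((x.toMul : PreIdele) q 1 : Ω q)
  rw [show (res L (Idele.loc q τ) • x).toMul = res L (Idele.loc q τ) • x.toMul from rfl,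
    coe_smul_idl L _ _ rfl, transl_apply, one_mul]
  have h := (mem_idl.1 x.toMul.2).1 q τ 1
  rwa [mul_one] at h

theorem evalQ_diag (q : Nat.Primes) (y : Additive Lˣ) :
    evalQ q (diag L y) = embU q (unitsToQ L y) :=
  Additive.toMul.injective (Units.ext rfl)

theorem evalQ_mem (q : Nat.Primes) (x : J L) :
    (((evalQ q x).toMul : (Ω q)ˣ) : Ω q) ∈ E L q := value_mem_E L x.toMul.2 q 1

/-- Units lying in an intermediate field. -/
def unitsIn (q : Nat.Primes) (F : IntermediateField ℚ_[(q : ℕ)] (Ω q)) :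
    AddSubgroup (Additive (Ω q)ˣ) where
  carrier := {u | ((u.toMul : (Ω q)ˣ) : Ω q) ∈ F}
  zero_mem' := by simp
  add_mem' {a b} ha hb := by
    simp only [Set.mem_ofPred_eq, toMul_add, Units.val_mul] at ha hb ⊢
    exact mul_mem ha hb
  neg_mem' {a} ha := by
    simp only [Set.mem_ofPred_eq, toMul_neg, Units.val_inv_eq_inv_val] at ha ⊢
    exact inv_mem ha

variable {K : IntermediateField ℚ QBar} [FiniteDimensional ℚ K] [Normal ℚ K]
  {A ι : Type*} [AddCommGroup A] [DistribMulAction (K ≃ₐ[ℚ] K) A] [Fintype ι] {p : ℕ}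
  [Fact p.Prime] {ε : Lat (K ≃ₐ[ℚ] K) ι →+ A} {hε : Presentation p ε} {S : Finset Nat.Primes}

/-- A linked cocycle is a local coboundary of a level constant cochain. -/
theorem exists_local_cochain_of_linkAt (hp2 : p ≠ 2) {le : K ≤ L}
    {c : GQ × GQ → DualMod K A} {f : ε.ker →+ C K} {b : ε.ker →+ J L}
    {e : (L ≃ₐ[ℚ] L) → TwHom (levelRes le) (Lat (K ≃ₐ[ℚ] K) ι) (Additive Lˣ)}
    (hl : LinkAt hε S le c f b e) (q : Nat.Primes) :
    ∃ m : primeLocalGaloisGroup q → DualMod K A,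
      IsLevelConstant₁ (primeLocalToGlobal q) m ∧ ∀ s t,
        c (primeLocalToGlobal q s, primeLocalToGlobal q t) =
          primeLocalToGlobal q s • m t - m (s * t) + m s := by
  classical
  obtain ⟨y, hy⟩ := (baer_unitsΩ q).extension_property_addMonoidHom ε.ker.subtype
    (AddSubgroup.subtype_injective _) ((evalQ q).comp b)
  have hy' : ∀ s : ε.ker, y (s : Lat (K ≃ₐ[ℚ] K) ι) = evalQ q (b s) := fun s =>
    DFunLike.congr_fun hy s
  -- a level at which the extension takes its values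
  have hroot : ∀ z : ι × (K ≃ₐ[ℚ] K), ∃ L' : IntermediateField ℚ QBar, FiniteDimensional ℚ L' ∧
      Normal ℚ L' ∧ L ≤ L' ∧ (((y (Lat.e z.1 z.2)).toMul : (Ω q)ˣ) : Ω q) ∈ E L' q := fun z =>
    exists_mem_localField_of_pow_mem hp2 L (Units.ne_zero _) (by
      rw [← Units.val_pow_eq_pow_val, ← toMul_nsmul, ← map_nsmul,
        hy' ⟨_, hε.smul_mem (Lat.e z.1 z.2)⟩]
      exact evalQ_mem q _)
  choose Lz hfin hnorm hLz hyz using hroot
  haveI : ∀ z, FiniteDimensional ℚ (Lz z) := hfin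
  set F := L ⊔ ⨆ z, Lz z
  haveI : FiniteDimensional ℚ F := IntermediateField.finiteDimensional_sup _ _
  set L' := IntermediateField.normalClosure ℚ F QBar
  haveI : Normal ℚ L' := normal_normalClosure F
  have hLL : L ≤ L' := le_sup_left.trans F.le_normalClosure
  have hyE : ∀ x, y x ∈ unitsIn q (E L' q) := fun x => by
    rw [Lat.eq_sum x, map_sum]
    refine sum_mem fun z _ => ?_
    rw [map_zsmul]
    refine zsmul_mem ?_ _
    exact localField_mono (q : ℕ)
      ((le_iSup Lz z).trans (le_sup_right.trans F.le_normalClosure)) (hyz z)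
  -- the difference on the lattice
  let π : (Ω q ≃ₐ[ℚ_[(q : ℕ)]] Ω q) →* (K ≃ₐ[ℚ] K) := (res K).comp (Idele.loc q)
  let Y : TwHom π (Lat (K ≃ₐ[ℚ] K) ι) (Additive (Ω q)ˣ) := TwHom.of y
  let Et : (Ω q ≃ₐ[ℚ_[(q : ℕ)]] Ω q) → TwHom π (Lat (K ≃ₐ[ℚ] K) ι) (Additive (Ω q)ˣ) :=
    fun τ => TwHom.of ((embU q).comp ((unitsToQ L).comp (e (res L (Idele.loc q τ))).toHom))
  let Ψ : (Ω q ≃ₐ[ℚ_[(q : ℕ)]] Ω q) → TwHom π (Lat (K ≃ₐ[ℚ] K) ι) (Additive (Ω q)ˣ) :=
    fun τ => Et τ - (τ • Y - Y)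
  have hπ : ∀ τ, levelRes le (res L (Idele.loc q τ)) = π τ := fun τ => levelRes_res le _
  have hker : ∀ τ, ε.ker ≤ (Ψ τ).toHom.ker := fun τ x hx => by
    rw [AddMonoidHom.mem_ker, TwHom.toHom_apply]
    have h := congrArg (evalQ q) (hl.coboundary (res L (Idele.loc q τ)) ⟨x, hx⟩)
    rw [evalQ_diag, map_sub, evalQ_smul, ← hy', ← hy'] at h
    simp only [Ψ, Et, Y, TwHom.sub_apply, TwHom.smul_apply, TwHom.of_apply,
      AddMonoidHom.comp_apply, TwHom.toHom_apply, ← h]
    rw [show ((smulS hε.isStable_ker (levelRes le (res L (Idele.loc q τ))⁻¹) ⟨x, hx⟩ : ε.ker) :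
        Lat (K ≃ₐ[ℚ] K) ι) = π τ⁻¹ • x by rw [map_inv, hπ, ← map_inv]; rfl]
    exact sub_self _
  let ψ : (Ω q ≃ₐ[ℚ_[(q : ℕ)]] Ω q) → A →+ Additive (Ω q)ˣ := fun τ =>
    ε.liftOfSurjective hε.surjective ⟨(Ψ τ).toHom, hker τ⟩
  have hψ : ∀ τ x, ψ τ (ε x) = Ψ τ x := fun τ x =>
    AddMonoidHom.liftOfRightInverse_comp_apply ε _ _ ⟨(Ψ τ).toHom, hker τ⟩ x
  have hrange : ∀ τ a, ψ τ a ∈ (embU q).range := fun τ a =>
    mem_range_embU_of_nsmul (p := p) q (by rw [← map_nsmul, hε.killed, map_zero])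
  let m : (Ω q ≃ₐ[ℚ_[(q : ℕ)]] Ω q) → DualMod K A := fun τ =>
    TwHom.of ((AddMonoidHom.ofInjective (embU_injective q)).symm.toAddMonoidHom.comp
      ((ψ τ).codRestrict _ (hrange τ)))
  have hm : ∀ τ x, embU q (m τ (ε x)) = Ψ τ x := fun τ x =>
    (congrArg Subtype.val
      ((AddMonoidHom.ofInjective (embU_injective q)).apply_symm_apply _)).trans (hψ τ x)
  refine ⟨m, ⟨L', inferInstance, fun (g s : Ω q ≃ₐ[ℚ_[(q : ℕ)]] Ω q) hs => ?_⟩,
    fun (s t : Ω q ≃ₐ[ℚ_[(q : ℕ)]] Ω q) => ?_⟩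
  · have hsL : ∀ z : L', Idele.loc q s (z : QBar) = (z : QBar) := fun z =>
      (IntermediateField.mem_fixingSubgroup_iff _ _).1 hs _ z.2
    have hsy : ∀ x, s • y x = y x := fun x => by
      refine Additive.toMul.injective (Units.ext ?_)
      show s (((y x).toMul : (Ω q)ˣ) : Ω q) = _
      refine fixes_localField (q : ℕ) L' (fun z => ?_) (hyE x)
      rw [← emb_loc, hsL]
    have hresL : res L (Idele.loc q s) = 1 :=
      (res_eq_one_iff L).2 (IntermediateField.fixingSubgroup_antitone hLL hs)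
    have hresK : π s = 1 :=
      (res_eq_one_iff K).2 (IntermediateField.fixingSubgroup_antitone (le.trans hLL) hs)
    refine TwHom.ext fun a => ?_
    obtain ⟨x, rfl⟩ := hε.surjective a
    refine embU_injective q ?_
    show embU q (m (g * s) (ε x)) = embU q (m g (ε x))
    rw [hm, hm]
    simp only [Ψ, Et, Y, TwHom.sub_apply, TwHom.smul_apply, TwHom.of_apply,
      AddMonoidHom.comp_apply, map_mul, hresL, mul_one, map_inv, hresK, inv_one,
      mul_smul, one_smul, hsy]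
  · show c (Idele.loc q s, Idele.loc q t) = Idele.loc q s • m t - m (s * t) + m s
    refine TwHom.ext fun a => ?_
    obtain ⟨x, rfl⟩ := hε.surjective a
    refine embU_injective q ?_
    have h1 := congr_arg (fun φ : DualMod K (Lat (K ≃ₐ[ℚ] K) ι) => embU q (φ x))
      (hl.spec (Idele.loc q s) (Idele.loc q t))
    simp only [TwHom.pre_apply] at h1
    rw [h1]
    simp only [TwHom.add_apply, TwHom.sub_apply, TwHom.smul_apply, map_add, map_sub]
    rw [← smul_embU, ← hε.map_smul]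
    rw [hm, hm, hm]
    simp only [Ψ, Et, Y, dd, toQHom_apply, TwHom.sub_apply, TwHom.add_apply, TwHom.smul_apply,
      TwHom.of_apply, TwHom.toHom_apply, AddMonoidHom.comp_apply, smul_sub, map_mul,
      map_add, map_sub, map_inv, mul_smul, ← smul_unitsToQ, ← smul_embU, levelRes_res, π,
      MonoidHom.comp_apply]
    abel

end Fermat.Agent.CFT.PT
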