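import Fermat.Agent.CFT.PT.Arith.Frobenius
import Fermat.Agent.CFT.PT.Local.Common

/-!
# `2`-cocycles are trivial at unramified primes

After enlarging the level, the decomposition group is generated by a Frobenius whose order is
divisible by `p` times the order of its image, and the cocycle becomes a coboundary there.
-/

set_option autoImplicit false
set_option synthInstance.maxHeartbeats 200000
set_option maxHeartbeats 800000
set_option linter.unusedSectionVars false
set_option linter.style.haveILetI false

noncomputable section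

namespace Fermat.Agent.CFT.PT

open ExtCitation Fermat.Agent.Arith IntermediateField Fermat.Agent.CFT.Local Fermat.Agent.CFT.Idele
open Fermat.Agent.CFT.Duality groupCohomology

local instance factPrimePTUnram (q : Nat.Primes) : Fact (q : ℕ).Prime := ⟨q.2⟩

section Powers

variable {G M : Type*} [Group G] [AddCommGroup M] [DistribMulAction G M] (c : G × G → M) (σ : G)

/-- The cochain trivialising a cocycle on the powers of `σ`. -/
def powCochain (k : ℕ) : M := c (1, 1) - ∑ j ∈ Finset.range k, c (σ ^ j, σ)

theorem cocycle_one_right (hc : IsCocycle₂ c) (g : G) : c (g, 1) = g • c (1, 1) := by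
  have h := hc g 1 1
  rw [mul_one, mul_one] at h
  exact add_right_cancel h

theorem powCochain_dd (hc : IsCocycle₂ c) (i k : ℕ) :
    σ ^ i • powCochain c σ k - powCochain c σ (i + k) + powCochain c σ i = c (σ ^ i, σ ^ k) := by
  induction k with
  | zero =>
    simp only [powCochain, Finset.range_zero, Finset.sum_empty, sub_zero, add_zero,
      sub_add_cancel, pow_zero]
    exact (cocycle_one_right c hc _).symm
  | succ k ih =>
    have h := hc (σ ^ i) (σ ^ k) σ
    rw [← pow_succ, ← pow_add] at h
    simp only [powCochain, ← add_assoc, Finset.sum_range_succ, smul_sub, smul_add] at ih ⊢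
    rw [eq_sub_iff_add_eq'.mpr h.symm, ← ih]
    abel

/-- If `σ ^ n = 1` and the values are killed by a divisor of `m`, the cochain has period `n m`. -/
theorem powCochain_periodic {n N : ℕ} {p : ℕ} (hσ : σ ^ n = 1) (hp : ∀ x : M, p • x = 0)
    (hN : p * n ∣ N) (k : ℕ) : powCochain c σ (k + N) = powCochain c σ k := by
  obtain ⟨t, rfl⟩ := hN
  have hper : ∀ j m : ℕ, c (σ ^ (n * m + j), σ) = c (σ ^ j, σ) := fun j m => by
    rw [pow_add, pow_mul, hσ, one_pow, one_mul]
  have hsum : ∀ m, ∑ j ∈ Finset.range (n * m), c (σ ^ j, σ) =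
      m • ∑ j ∈ Finset.range n, c (σ ^ j, σ) := fun m => by
    induction m with
    | zero => simp
    | succ m ih =>
      rw [Nat.mul_succ, Finset.sum_range_add, ih, succ_nsmul]
      simp only [hper]
  simp only [powCochain]
  rw [add_comm k, Finset.sum_range_add, show p * n * t = n * (p * t) by ring, hsum, mul_nsmul,
    hp, smul_zero, zero_add]
  simp only [hper]

theorem powCochain_mod {n N : ℕ} {p : ℕ} (hσ : σ ^ n = 1) (hp : ∀ x : M, p • x = 0)
    (hN : p * n ∣ N) (k : ℕ) : powCochain c σ k = powCochain c σ (k % N) := by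
  conv_lhs => rw [← Nat.mod_add_div k N]
  induction k / N with
  | zero => simp
  | succ a ih => rw [Nat.mul_succ, ← add_assoc, powCochain_periodic c σ hσ hp hN, ih]

end Powers

variable {K L : IntermediateField ℚ QBar} [FiniteDimensional ℚ K] [Normal ℚ K]
  [FiniteDimensional ℚ L] [Normal ℚ L] {A : Type*} [AddCommGroup A]
  [DistribMulAction (K ≃ₐ[ℚ] K) A]

/-- A cocycle at a level unramified outside `S` is trivial at every prime outside `S`. -/
theorem locTriv_unramified {p : ℕ} [Fact p.Prime] {S : Finset Nat.Primes} {le : K ≤ L}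
    {q : Nat.Primes} (hA : ∀ a : A, p • a = 0) (hL : L.IsUnramifiedOutside S) (hq : q ∉ S)
    (c : (L ≃ₐ[ℚ] L) × (L ≃ₐ[ℚ] L) → TwHom (levelRes le) A (Additive Lˣ)) (hc : IsCocycle₂ c) :
    LocTriv S c q := by
  classical
  obtain ⟨L', hfd, hn, h', δ, hur, hrange, hdvd⟩ := exists_frobenius_enlargement (p := p) (L := L)
    (q : ℕ) ((isUnramifiedOutside_iff L S).mp hL q hq)
  letI := hfd; letI := hn
  set σ := levelRes h' δ
  have hdvd' : p * orderOf σ ∣ orderOf δ := hdvd
  have hk : ∀ d : decomp L' q, ∃ k : ℕ, δ ^ k = (d : L' ≃ₐ[ℚ] L') := fun d => by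
    have hd : (d : L' ≃ₐ[ℚ] L') ∈ Subgroup.zpowers δ := hrange ▸ d.2
    exact Submonoid.mem_powers_iff _ _ |>.mp (mem_powers_iff_mem_zpowers.mpr hd)
  choose k hk using hk
  have hp : ∀ φ : TwHom (levelRes le) A (Additive Lˣ), p • φ = 0 := fun φ => TwHom.ext fun a => by
    rw [TwHom.nsmul_apply, ← map_nsmul, hA, map_zero, TwHom.zero_apply]
  refine locTriv_of_units h' (fun _ => hur) c hc
    (fun d => pushUnits h' (powCochain c σ (k d))) fun a b => ?_
  rw [smul_pushUnits, ← map_sub, ← map_add]
  congr 1
  have e : powCochain c σ (k (a * b)) = powCochain c σ (k a + k b) := by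
    have h : δ ^ k (a * b) = δ ^ (k a + k b) := by rw [pow_add, hk, hk, hk]; rfl
    rw [powCochain_mod c σ (pow_orderOf_eq_one σ) hp hdvd' (k (a * b)),
      powCochain_mod c σ (pow_orderOf_eq_one σ) hp hdvd' (k a + k b), pow_eq_pow_iff_modEq.mp h]
  rw [e, ← hk a, ← hk b, map_pow, map_pow]
  exact powCochain_dd c σ hc (k a) (k b)

end Fermat.Agent.CFT.PT
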